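import Mathlib

/-!
# S17 heights, leaf (RES-POLY), abstract core (pure Mathlib)

* `mwrp_exists_detPoly`   : `x ↦ det (Σ x_i E_i)` is a homogeneous polynomial of degree `dim V`;
* `mwrp_exists_unisolvent`: a finite-dimensional space of functions is interpolated by finitely many
  points;
* `mwrp_eq_of_generic`    : polynomials over an infinite field agreeing off a hypersurface agree;
* `mwrp_interp`, `mwrp_interp'` : a function which is separately polynomial (homogeneous of degrees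
  `n`, `m`) for generic values of the other argument is a bihomogeneous polynomial `MwrpBihom F n m`;
* `mwrpRho K a b := det (b | B ⧸ aB)` and **`mwrp_resPoly`** : from the generic reciprocity law
  `ℓ₁(x)^n ρ(u_x, t_y) = ε ℓ₂(y)^m ρ(t_y, u_x)` a bihomogeneous polynomial `F` of bidegree `(n, m)` with
  `F(x, y) = ℓ₁(x)^n ρ(u_x, t_y)` (generic `x`, ALL `y`) and `F(x, y) = ε ℓ₂(y)^m ρ(t_y, u_x)`
  (generic `y`, ALL `x`).

Owner: helper17.  Prefix `mwrp_` / `Mwrp`.
-/

set_option autoImplicit false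

namespace Fermat.Agent.MW

open Module MvPolynomial

section Density

variable {K σ : Type*} [Field K] [Infinite K]

/-- a polynomial vanishing off a hypersurface vanishes. -/
theorem mwrp_eq_zero_of_generic (ℓ p : MvPolynomial σ K) (hℓ : ℓ ≠ 0)
    (h : ∀ y : σ → K, eval y ℓ ≠ 0 → eval y p = 0) : p = 0 := by
  have h0 : p * ℓ = 0 := by
    apply MvPolynomial.funext
    intro y
    rw [map_mul, map_zero]
    by_cases hy : eval y ℓ = 0
    · rw [hy, mul_zero]
    · rw [h y hy, zero_mul]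
  exact (mul_eq_zero.1 h0).resolve_right hℓ

theorem mwrp_eq_of_generic (ℓ p q : MvPolynomial σ K) (hℓ : ℓ ≠ 0)
    (h : ∀ y : σ → K, eval y ℓ ≠ 0 → eval y p = eval y q) : p = q := by
  rw [← sub_eq_zero]
  refine mwrp_eq_zero_of_generic ℓ _ hℓ fun y hy => ?_
  rw [map_sub, h y hy, sub_self]

end Density

section Weights

variable {R σ τ : Type*} [CommSemiring R]

theorem mwrp_isWeightedHomogeneous_rename (f : σ → τ) (w : τ → ℕ) {p : MvPolynomial σ R} {n : ℕ}
    (hp : p.IsWeightedHomogeneous (w ∘ f) n) : (rename f p).IsWeightedHomogeneous w n := by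
  classical
  intro d hd
  obtain ⟨u, rfl, hu⟩ := coeff_rename_ne_zero f p d hd
  rw [← hp hu, Finsupp.weight_apply, Finsupp.weight_apply, Finsupp.sum_mapDomain_index]
  · rfl
  · intro i; simp
  · intro i a b; simp [add_mul]

theorem mwrp_isWeightedHomogeneous_zero_weight (p : MvPolynomial σ R) :
    p.IsWeightedHomogeneous (fun _ : σ => (0 : ℕ)) 0 := by
  intro d _
  rw [Finsupp.weight_apply]
  simp [Finsupp.sum]

end Weights

/-- bihomogeneity of bidegree `(n, m)` of a polynomial in two groups of variables. -/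
def MwrpBihom {K ι κ : Type*} [CommSemiring K] (F : MvPolynomial (ι ⊕ κ) K) (n m : ℕ) : Prop :=
  F.IsWeightedHomogeneous (Sum.elim (fun _ : ι => (1 : ℕ)) (fun _ : κ => (0 : ℕ))) n ∧
    F.IsWeightedHomogeneous (Sum.elim (fun _ : ι => (0 : ℕ)) (fun _ : κ => (1 : ℕ))) m

theorem mwrp_bihom_mul_rename {K ι κ : Type*} [CommSemiring K] {q : MvPolynomial ι K}
    {p : MvPolynomial κ K} {n m : ℕ} (hq : q.IsHomogeneous n) (hp : p.IsHomogeneous m) :
    MwrpBihom (rename Sum.inl q * rename Sum.inr p : MvPolynomial (ι ⊕ κ) K) n m := by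
  constructor
  · have h1 : (rename Sum.inl q : MvPolynomial (ι ⊕ κ) K).IsWeightedHomogeneous
        (Sum.elim (fun _ : ι => (1 : ℕ)) (fun _ : κ => (0 : ℕ))) n :=
      mwrp_isWeightedHomogeneous_rename _ _ (by
        have : (Sum.elim (fun _ : ι => (1 : ℕ)) (fun _ : κ => (0 : ℕ)) ∘ Sum.inl) = (1 : ι → ℕ) := rfl
        rw [this]; exact hq)
    have h2 : (rename Sum.inr p : MvPolynomial (ι ⊕ κ) K).IsWeightedHomogeneous
        (Sum.elim (fun _ : ι => (1 : ℕ)) (fun _ : κ => (0 : ℕ))) 0 :=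
      mwrp_isWeightedHomogeneous_rename _ _
        (by simpa [Function.comp_def] using mwrp_isWeightedHomogeneous_zero_weight p)
    simpa using h1.mul h2
  · have h1 : (rename Sum.inl q : MvPolynomial (ι ⊕ κ) K).IsWeightedHomogeneous
        (Sum.elim (fun _ : ι => (0 : ℕ)) (fun _ : κ => (1 : ℕ))) 0 :=
      mwrp_isWeightedHomogeneous_rename _ _
        (by simpa [Function.comp_def] using mwrp_isWeightedHomogeneous_zero_weight q)
    have h2 : (rename Sum.inr p : MvPolynomial (ι ⊕ κ) K).IsWeightedHomogeneous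
        (Sum.elim (fun _ : ι => (0 : ℕ)) (fun _ : κ => (1 : ℕ))) m :=
      mwrp_isWeightedHomogeneous_rename _ _ (by
        have : (Sum.elim (fun _ : ι => (0 : ℕ)) (fun _ : κ => (1 : ℕ)) ∘ Sum.inr) = (1 : κ → ℕ) := rfl
        rw [this]; exact hp)
    simpa using h1.mul h2

theorem MwrpBihom.sum {K ι κ α : Type*} [CommSemiring K] (s : Finset α)
    (F : α → MvPolynomial (ι ⊕ κ) K) {n m : ℕ} (h : ∀ a ∈ s, MwrpBihom (F a) n m) :
    MwrpBihom (∑ a ∈ s, F a) n m :=
  ⟨IsWeightedHomogeneous.sum _ _ _ fun a ha => (h a ha).1,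
    IsWeightedHomogeneous.sum _ _ _ fun a ha => (h a ha).2⟩

/-- **unisolvent finite sets.**  A finite-dimensional space `H` of functions on `U` (an injective
linear map `E : H → (U → K)`) is interpolated by finitely many points: there are a finite set `S`
of points and elements `P s ∈ H` with `p = Σ_{s ∈ S} p(s) • P s` for all `p ∈ H`. -/
theorem mwrp_exists_unisolvent {K H U : Type*} [Field K] [AddCommGroup H] [Module K H]
    [FiniteDimensional K H] (E : H →ₗ[K] (U → K)) (hE : Function.Injective E) :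
    ∃ (S : Finset U) (P : S → H), ∀ p : H, p = ∑ s : S, E p s • P s := by
  classical
  let ev : U → Module.Dual K H := fun y => (LinearMap.proj y).comp E
  have hev : ∀ y p, ev y p = E p y := fun y p => rfl
  let W : Subspace K (Module.Dual K H) := Submodule.span K (Set.range ev)
  have hco : W.dualCoannihilator = ⊥ := by
    rw [eq_bot_iff]
    intro x hx
    rw [Submodule.mem_dualCoannihilator] at hx
    rw [Submodule.mem_bot]
    apply hE
    rw [map_zero]
    funext y
    exact hx (ev y) (Submodule.subset_span ⟨y, rfl⟩)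
  have hW : W = ⊤ := by
    rw [← Subspace.dualCoannihilator_dualAnnihilator_eq (W := W), hco,
      Submodule.dualAnnihilator_bot]
  have hfg : W.FG := IsNoetherian.noetherian W
  obtain ⟨s', hs's, hspan⟩ := (Submodule.fg_span_iff_fg_span_finset_subset (Set.range ev)).1 hfg
  have hch : ∀ φ : s', ∃ y : U, ev y = φ := fun φ => hs's φ.2
  choose yy hyy using hch
  let S : Finset U := Finset.univ.image yy
  let ES : H →ₗ[K] (S → K) := LinearMap.pi fun s => (LinearMap.proj (s : U)).comp E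
  have hES : ∀ p (s : S), ES p s = E p s := fun p s => rfl
  have hinj : LinearMap.ker ES = ⊥ := by
    rw [eq_bot_iff]
    intro p hp
    rw [LinearMap.mem_ker] at hp
    rw [Submodule.mem_bot, ← Module.forall_dual_apply_eq_zero_iff K]
    intro φ
    have hφ : φ ∈ Submodule.span K (s' : Set (Module.Dual K H)) := by
      rw [← hspan]
      show φ ∈ W
      rw [hW]; trivial
    refine Submodule.span_induction (p := fun ψ _ => ψ p = 0) ?_ ?_ ?_ ?_ hφ
    · intro ψ hψ
      have h1 : yy ⟨ψ, hψ⟩ ∈ S := Finset.mem_image_of_mem _ (Finset.mem_univ _)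
      have h2 := congrFun hp ⟨_, h1⟩
      rw [hES, Pi.zero_apply, ← hev, hyy] at h2
      exact h2
    · simp
    · intro a b _ _ ha hb
      rw [LinearMap.add_apply, ha, hb, add_zero]
    · intro c a _ ha
      rw [LinearMap.smul_apply, ha, smul_zero]
  obtain ⟨Λ, hΛ⟩ := ES.exists_leftInverse_of_injective hinj
  refine ⟨S, fun s => Λ (Pi.single s 1), fun p => ?_⟩
  have h1 : ES p = ∑ s : S, E p s • (Pi.single s (1 : K) : S → K) := by
    funext t
    rw [Finset.sum_apply]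
    simp only [Pi.smul_apply, Pi.single_apply, smul_eq_mul, mul_ite, mul_one, mul_zero]
    rw [Finset.sum_ite_eq]
    simp [hES]
  have h2 : Λ (ES p) = p := by
    have := congrArg (fun f => f p) hΛ
    simpa using this
  calc p = Λ (ES p) := h2.symm
    _ = Λ (∑ s : S, E p s • (Pi.single s (1 : K) : S → K)) := by rw [← h1]
    _ = ∑ s : S, E p s • Λ (Pi.single s 1) := by
      rw [map_sum]
      exact Finset.sum_congr rfl fun s _ => map_smul _ _ _


/-- **(RP-B) interpolation.**  A function `Φ x y` which for generic `x` is a homogeneous polynomial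
of degree `m` in `y`, and for generic `y` a homogeneous polynomial of degree `n` in `x`, is given
on generic pairs by a bihomogeneous polynomial of bidegree `(n, m)`. -/
theorem mwrp_interp {K ι κ : Type*} [Field K] [Infinite K] [Finite κ] (n m : ℕ)
    (ℓ₁ : MvPolynomial ι K) (ℓ₂ : MvPolynomial κ K) (h₂ : ℓ₂ ≠ 0)
    (Φ : (ι → K) → (κ → K) → K)
    (ha : ∀ x, eval x ℓ₁ ≠ 0 → ∃ p : MvPolynomial κ K, p.IsHomogeneous m ∧
      ∀ y, eval y ℓ₂ ≠ 0 → eval y p = Φ x y)
    (hb : ∀ y, eval y ℓ₂ ≠ 0 → ∃ q : MvPolynomial ι K, q.IsHomogeneous n ∧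
      ∀ x, eval x ℓ₁ ≠ 0 → eval x q = Φ x y) :
    ∃ F : MvPolynomial (ι ⊕ κ) K, MwrpBihom F n m ∧
      ∀ x y, eval x ℓ₁ ≠ 0 → eval y ℓ₂ ≠ 0 → eval (Sum.elim x y) F = Φ x y := by
  classical
  let U : Type _ := {y : κ → K // eval y ℓ₂ ≠ 0}
  let H : Submodule K (MvPolynomial κ K) := homogeneousSubmodule κ K m
  have hfin : Module.Finite K H := Module.Finite.iff_fg.2 (homogeneousSubmodule_fg κ K m)
  let E : H →ₗ[K] (U → K) :=
    { toFun := fun p y => eval y.1 (p : MvPolynomial κ K)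
      map_add' := fun p q => by funext y; simp
      map_smul' := fun c p => by funext y; simp }
  have hE : ∀ (p : H) (y : U), E p y = eval y.1 (p : MvPolynomial κ K) := fun _ _ => rfl
  have hEinj : Function.Injective E := by
    rw [← LinearMap.ker_eq_bot, eq_bot_iff]
    intro p hp
    rw [LinearMap.mem_ker] at hp
    rw [Submodule.mem_bot]
    apply Subtype.ext
    rw [Submodule.coe_zero]
    refine mwrp_eq_zero_of_generic ℓ₂ _ h₂ fun y hy => ?_
    have := congrFun hp ⟨y, hy⟩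
    rwa [hE] at this
  obtain ⟨S, P, hP⟩ := mwrp_exists_unisolvent E hEinj
  -- the polynomials in `x` attached to the nodes
  have hq : ∀ s : S, ∃ q : MvPolynomial ι K, q.IsHomogeneous n ∧
      ∀ x, eval x ℓ₁ ≠ 0 → eval x q = Φ x (s : U).1 := fun s => hb _ (s : U).2
  choose q hqhom hqev using hq
  refine ⟨∑ s : S, rename Sum.inl (q s) * rename Sum.inr ((P s : H) : MvPolynomial κ K), ?_, ?_⟩
  · exact MwrpBihom.sum _ _ fun s _ => mwrp_bihom_mul_rename (hqhom s) (P s).2
  · intro x y hx hy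
    obtain ⟨p, hphom, hpev⟩ := ha x hx
    have hdec := hP ⟨p, hphom⟩
    have h1 : eval y p = ∑ s : S, eval (s : U).1 p * eval y ((P s : H) : MvPolynomial κ K) := by
      have := congrArg (fun r : H => eval y (r : MvPolynomial κ K)) hdec
      simp only [Submodule.coe_sum, Submodule.coe_smul, map_sum, smul_eval, hE] at this
      exact this
    rw [map_sum, ← hpev y hy, h1]
    refine Finset.sum_congr rfl fun s _ => ?_
    rw [map_mul, eval_rename, eval_rename, Sum.elim_comp_inl, Sum.elim_comp_inr, hqev s x hx,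
      hpev _ (s : U).2]

/-- the determinant of a matrix of linear forms is a homogeneous polynomial. -/
theorem mwrp_det_isHomogeneous {K ι : Type*} [CommRing K] {d : Type*} [Fintype d] [DecidableEq d]
    (M : Matrix d d (MvPolynomial ι K)) (hM : ∀ a c, (M a c).IsHomogeneous 1) :
    M.det.IsHomogeneous (Fintype.card d) := by
  rw [Matrix.det_apply']
  refine IsHomogeneous.sum _ _ _ fun σ _ => ?_
  have h1 : (∏ i, M (σ i) i).IsHomogeneous (∑ _i : d, 1) :=
    IsHomogeneous.prod _ _ _ fun i _ => hM (σ i) i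
  have h2 : ((((Equiv.Perm.sign σ : ℤˣ) : ℤ) : MvPolynomial ι K)).IsHomogeneous 0 := by
    rw [← map_intCast (C : K →+* MvPolynomial ι K)]
    exact isHomogeneous_C _ _
  have := h2.mul h1
  simpa using this

/-- **(RP-A)** for a finite family of endomorphisms `E i` of a finite-dimensional space,
`x ↦ det (Σ x_i E_i)` is a homogeneous polynomial of degree `dim V`. -/
theorem mwrp_exists_detPoly {K V ι : Type*} [Field K] [AddCommGroup V] [Module K V]
    [FiniteDimensional K V] [Fintype ι] (E : ι → Module.End K V) :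
    ∃ D : MvPolynomial ι K, D.IsHomogeneous (finrank K V) ∧
      ∀ x : ι → K, MvPolynomial.eval x D = LinearMap.det (∑ i, x i • E i) := by
  classical
  let b := Module.finBasis K V
  let M : Matrix (Fin (finrank K V)) (Fin (finrank K V)) (MvPolynomial ι K) :=
    ∑ i, (X i : MvPolynomial ι K) • (LinearMap.toMatrix b b (E i)).map (C : K →+* MvPolynomial ι K)
  refine ⟨M.det, ?_, ?_⟩
  · have := mwrp_det_isHomogeneous M ?_
    · simpa using this
    · intro a c
      have : M a c = ∑ i, X i * C (LinearMap.toMatrix b b (E i) a c) := by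
        simp [M, Matrix.sum_apply]
      rw [this]
      refine IsHomogeneous.sum _ _ _ fun i _ => ?_
      have := (isHomogeneous_X K i).mul (isHomogeneous_C ι (LinearMap.toMatrix b b (E i) a c))
      simpa using this
  · intro x
    rw [RingHom.map_det]
    have : (eval x).mapMatrix M = LinearMap.toMatrix b b (∑ i, x i • E i) := by
      ext a c
      simp [M, Matrix.sum_apply, map_sum]
    rw [this, LinearMap.det_toMatrix]


section Partial

variable {K ι κ : Type*} [CommRing K]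

/-- partial evaluation in the first group of variables. -/
noncomputable def mwrpEvalL (x : ι → K) : MvPolynomial (ι ⊕ κ) K →ₐ[K] MvPolynomial κ K :=
  aeval (Sum.elim (fun i => (C (x i) : MvPolynomial κ K)) X)

/-- partial evaluation in the second group of variables. -/
noncomputable def mwrpEvalR (y : κ → K) : MvPolynomial (ι ⊕ κ) K →ₐ[K] MvPolynomial ι K :=
  aeval (Sum.elim X (fun j => (C (y j) : MvPolynomial ι K)))

theorem mwrp_eval_evalL (x : ι → K) (y : κ → K) (F : MvPolynomial (ι ⊕ κ) K) :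
    eval y (mwrpEvalL x F) = eval (Sum.elim x y) F := by
  have h : ((aeval y : MvPolynomial κ K →ₐ[K] K).comp (mwrpEvalL x)) = aeval (Sum.elim x y) := by
    apply MvPolynomial.algHom_ext
    rintro (i | j) <;> simp [mwrpEvalL]
  have := congrArg (fun f : MvPolynomial (ι ⊕ κ) K →ₐ[K] K => f F) h
  simpa [aeval_eq_eval] using this

theorem mwrp_eval_evalR (x : ι → K) (y : κ → K) (F : MvPolynomial (ι ⊕ κ) K) :
    eval x (mwrpEvalR y F) = eval (Sum.elim x y) F := by
  have h : ((aeval x : MvPolynomial ι K →ₐ[K] K).comp (mwrpEvalR y)) = aeval (Sum.elim x y) := by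
    apply MvPolynomial.algHom_ext
    rintro (i | j) <;> simp [mwrpEvalR]
  have := congrArg (fun f : MvPolynomial (ι ⊕ κ) K →ₐ[K] K => f F) h
  simpa [aeval_eq_eval] using this

end Partial

/-- **(RP-B')** interpolation, with the extension to all `x` (resp. all `y`). -/
theorem mwrp_interp' {K ι κ : Type*} [Field K] [Infinite K] [Finite κ] (n m : ℕ)
    (ℓ₁ : MvPolynomial ι K) (ℓ₂ : MvPolynomial κ K) (h₁ : ℓ₁ ≠ 0) (h₂ : ℓ₂ ≠ 0)
    (p : (ι → K) → MvPolynomial κ K) (q : (κ → K) → MvPolynomial ι K)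
    (hp : ∀ x, eval x ℓ₁ ≠ 0 → (p x).IsHomogeneous m)
    (hq : ∀ y, eval y ℓ₂ ≠ 0 → (q y).IsHomogeneous n)
    (hpq : ∀ x y, eval x ℓ₁ ≠ 0 → eval y ℓ₂ ≠ 0 → eval y (p x) = eval x (q y)) :
    ∃ F : MvPolynomial (ι ⊕ κ) K, MwrpBihom F n m ∧
      (∀ x y, eval x ℓ₁ ≠ 0 → eval (Sum.elim x y) F = eval y (p x)) ∧
      (∀ x y, eval y ℓ₂ ≠ 0 → eval (Sum.elim x y) F = eval x (q y)) := by
  obtain ⟨F, hF, hev⟩ := mwrp_interp n m ℓ₁ ℓ₂ h₂ (fun x y => eval y (p x))
    (fun x hx => ⟨p x, hp x hx, fun y _ => rfl⟩)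
    (fun y hy => ⟨q y, hq y hy, fun x hx => (hpq x y hx hy).symm⟩)
  refine ⟨F, hF, ?_, ?_⟩
  · intro x y hx
    have : mwrpEvalL x F = p x :=
      mwrp_eq_of_generic ℓ₂ _ _ h₂ fun y' hy' => by rw [mwrp_eval_evalL, hev x y' hx hy']
    rw [← mwrp_eval_evalL, this]
  · intro x y hy
    have : mwrpEvalR y F = q y :=
      mwrp_eq_of_generic ℓ₁ _ _ h₁ fun x' hx' => by
        rw [mwrp_eval_evalR, hev x' y hx' hy, hpq x' y hx' hy]
    rw [← mwrp_eval_evalR, this]


section Ring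

variable (K : Type*) {B : Type*} [Field K] [CommRing B] [Algebra K B]

/-- `ρ(a, b) = det (multiplication by b | B ⧸ aB)`. -/
noncomputable def mwrpRho (a b : B) : K :=
  LinearMap.det (LinearMap.mulLeft K (Ideal.Quotient.mk (Ideal.span {a}) b))

variable {K}

/-- for fixed `a` with `B ⧸ aB` finite-dimensional, `y ↦ ρ(a, Σ y_j ψ_j)` is a homogeneous
polynomial of degree `dim B ⧸ aB`. -/
theorem mwrp_exists_rhoPoly {κ : Type*} [Fintype κ] (a : B)
    [Module.Finite K (B ⧸ Ideal.span {a})] (ψ : κ → B) :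
    ∃ D : MvPolynomial κ K, D.IsHomogeneous (finrank K (B ⧸ Ideal.span {a})) ∧
      ∀ y : κ → K, eval y D = mwrpRho K a (∑ j, y j • ψ j) := by
  obtain ⟨D, hD, hev⟩ := mwrp_exists_detPoly (K := K) (V := B ⧸ Ideal.span {a})
    (fun j => LinearMap.mulLeft K (Ideal.Quotient.mk (Ideal.span {a}) (ψ j)))
  refine ⟨D, hD, fun y => ?_⟩
  rw [hev y, mwrpRho]
  congr 1
  apply LinearMap.ext
  intro v
  simp only [LinearMap.sum_apply, LinearMap.smul_apply, LinearMap.mulLeft_apply, map_sum,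
    Finset.sum_mul]
  refine Finset.sum_congr rfl fun j _ => ?_
  rw [Algebra.smul_def, ← mul_assoc]
  congr 1
  rw [Algebra.smul_def, map_mul]
  rfl

/-- **(RP-C) the resultant polynomial.**  `φ`, `ψ` finite families in `B`, `u_x = Σ x_i φ_i`,
`t_y = Σ y_j ψ_j`.  If generically `dim B ⧸ u_x = m`, `dim B ⧸ t_y = n` and the reciprocity law
`α ℓ₁(x)^n ρ(u_x, t_y) = β ℓ₂(y)^m ρ(t_y, u_x)` holds (`α, β` constants, e.g. `1` and a sign), there
is a bihomogeneous polynomial `F` of bidegree `(n, m)` with `F(x, y) = α ℓ₁(x)^n ρ(u_x, t_y)` for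
generic `x` and ALL `y`, and `F(x, y) = β ℓ₂(y)^m ρ(t_y, u_x)` for generic `y` and ALL `x`. -/
theorem mwrp_resPoly [Infinite K] {ι κ : Type*} [Fintype ι] [Fintype κ]
    (φ : ι → B) (ψ : κ → B) (n m : ℕ) (α β : K)
    (ℓ₁ : MvPolynomial ι K) (ℓ₂ : MvPolynomial κ K) (h₁ : ℓ₁ ≠ 0) (h₂ : ℓ₂ ≠ 0)
    (hfin₁ : ∀ x : ι → K, eval x ℓ₁ ≠ 0 →
      Module.Finite K (B ⧸ Ideal.span {∑ i, x i • φ i}) ∧
        finrank K (B ⧸ Ideal.span {∑ i, x i • φ i}) = m)
    (hfin₂ : ∀ y : κ → K, eval y ℓ₂ ≠ 0 →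
      Module.Finite K (B ⧸ Ideal.span {∑ j, y j • ψ j}) ∧
        finrank K (B ⧸ Ideal.span {∑ j, y j • ψ j}) = n)
    (hsym : ∀ (x : ι → K) (y : κ → K), eval x ℓ₁ ≠ 0 → eval y ℓ₂ ≠ 0 →
      α * eval x ℓ₁ ^ n * mwrpRho K (∑ i, x i • φ i) (∑ j, y j • ψ j)
        = β * eval y ℓ₂ ^ m * mwrpRho K (∑ j, y j • ψ j) (∑ i, x i • φ i)) :
    ∃ F : MvPolynomial (ι ⊕ κ) K, MwrpBihom F n m ∧
      (∀ x y, eval x ℓ₁ ≠ 0 → eval (Sum.elim x y) F
        = α * eval x ℓ₁ ^ n * mwrpRho K (∑ i, x i • φ i) (∑ j, y j • ψ j)) ∧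
      (∀ x y, eval y ℓ₂ ≠ 0 → eval (Sum.elim x y) F
        = β * eval y ℓ₂ ^ m * mwrpRho K (∑ j, y j • ψ j) (∑ i, x i • φ i)) := by
  classical
  -- the polynomial in `y` attached to a generic `x`
  have hP : ∀ x : ι → K, ∃ p : MvPolynomial κ K, eval x ℓ₁ ≠ 0 →
      (p.IsHomogeneous m ∧ ∀ y : κ → K,
        eval y p = α * eval x ℓ₁ ^ n * mwrpRho K (∑ i, x i • φ i) (∑ j, y j • ψ j)) := by
    intro x
    by_cases hx : eval x ℓ₁ ≠ 0
    · obtain ⟨hf, hr⟩ := hfin₁ x hx
      obtain ⟨D, hD, hev⟩ := mwrp_exists_rhoPoly (K := K) (∑ i, x i • φ i) ψ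
      refine ⟨C (α * eval x ℓ₁ ^ n) * D, fun _ => ⟨?_, fun y => ?_⟩⟩
      · rw [hr] at hD
        simpa using (isHomogeneous_C κ (α * eval x ℓ₁ ^ n)).mul hD
      · rw [map_mul, eval_C, hev]
    · exact ⟨0, fun h => absurd h hx⟩
  have hQ : ∀ y : κ → K, ∃ q : MvPolynomial ι K, eval y ℓ₂ ≠ 0 →
      (q.IsHomogeneous n ∧ ∀ x : ι → K,
        eval x q = β * eval y ℓ₂ ^ m * mwrpRho K (∑ j, y j • ψ j) (∑ i, x i • φ i)) := by
    intro y
    by_cases hy : eval y ℓ₂ ≠ 0
    · obtain ⟨hf, hr⟩ := hfin₂ y hy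
      obtain ⟨D, hD, hev⟩ := mwrp_exists_rhoPoly (K := K) (∑ j, y j • ψ j) φ
      refine ⟨C (β * eval y ℓ₂ ^ m) * D, fun _ => ⟨?_, fun x => ?_⟩⟩
      · rw [hr] at hD
        simpa using (isHomogeneous_C ι (β * eval y ℓ₂ ^ m)).mul hD
      · rw [map_mul, eval_C, hev]
    · exact ⟨0, fun h => absurd h hy⟩
  choose p hp using hP
  choose q hq using hQ
  obtain ⟨F, hF, hL, hR⟩ := mwrp_interp' n m ℓ₁ ℓ₂ h₁ h₂ p q (fun x hx => (hp x hx).1)
    (fun y hy => (hq y hy).1)
    (fun x y hx hy => by rw [(hp x hx).2 y, (hq y hy).2 x, hsym x y hx hy])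
  refine ⟨F, hF, fun x y hx => ?_, fun x y hy => ?_⟩
  · rw [hL x y hx, (hp x hx).2 y]
  · rw [hR x y hy, (hq y hy).2 x]

/-- **abstract (R4), first variable.**  Two resultant polynomials `F` (families `φ`, order `m`) and
`F'` (families `φ'`, order `m' ≤ m`) for the same `ψ`: if `u_x = u'_{x'}` then
`F(x, y) = ℓ₂(y)^(m - m') F'(x', y)` for ALL `y`. -/
theorem mwrp_R4_left [Infinite K] {ι ι' κ : Type*} [Fintype ι] [Fintype ι'] [Fintype κ]
    (φ : ι → B) (φ' : ι' → B) (ψ : κ → B) {m m' : ℕ} (hm : m' ≤ m) (β : K)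
    (ℓ₂ : MvPolynomial κ K) (h₂ : ℓ₂ ≠ 0)
    (F : MvPolynomial (ι ⊕ κ) K) (F' : MvPolynomial (ι' ⊕ κ) K)
    (hF : ∀ x y, eval y ℓ₂ ≠ 0 → eval (Sum.elim x y) F
        = β * eval y ℓ₂ ^ m * mwrpRho K (∑ j, y j • ψ j) (∑ i, x i • φ i))
    (hF' : ∀ x y, eval y ℓ₂ ≠ 0 → eval (Sum.elim x y) F'
        = β * eval y ℓ₂ ^ m' * mwrpRho K (∑ j, y j • ψ j) (∑ i, x i • φ' i))
    (x : ι → K) (x' : ι' → K) (hxx' : ∑ i, x i • φ i = ∑ i, x' i • φ' i) (y : κ → K) :
    eval (Sum.elim x y) F = eval y ℓ₂ ^ (m - m') * eval (Sum.elim x' y) F' := by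
  have h : mwrpEvalL x F = ℓ₂ ^ (m - m') * mwrpEvalL x' F' := by
    refine mwrp_eq_of_generic ℓ₂ _ _ h₂ fun y' hy' => ?_
    rw [map_mul, map_pow, mwrp_eval_evalL, mwrp_eval_evalL, hF x y' hy', hF' x' y' hy', hxx']
    have : eval y' ℓ₂ ^ m = eval y' ℓ₂ ^ (m - m') * eval y' ℓ₂ ^ m' := by
      rw [← pow_add, Nat.sub_add_cancel hm]
    rw [this]; ring
  have := congrArg (eval y) h
  rwa [mwrp_eval_evalL, map_mul, map_pow, mwrp_eval_evalL] at this

end Ring

end Fermat.Agent.MW
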