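import Mathlib
import Fermat.Agent.MW.ResPoly.Core

/-!
# S17 heights, leaf (RES-POLY): the resultant polynomial with its two product forms

Abstract setting (to be instantiated with `B = V27pB T`, `ord = v27pOrd`, `lc =` helper5's
multiplicative leading coefficient): a `K`-algebra `B` over an infinite field with functions
`ord : B → ℕ`, `lc : B → K` such that

* `hfin` : `dim_K B ⧸ bB = ord b` (finite) for `b ≠ 0`                      [helper5 `mwrs_finrank`]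
* `hsym` : `ρ(u,T) lc(u)^(ord T) = ε(ord u, ord T) ρ(T,u) lc(T)^(ord u)`  [helper5 `mwrs_sym`, with a
            sign depending ONLY on the two orders]
* `hZ`   : `ρ(b, t) = ∏_{q ∈ Z(b)} q(t)` for a multiset `Z(b)` of `K`-points  [helper4 (CRT)]

and two finite families `φ : ι → B` ("basis of `L_m`"), `ψ : κ → B` ("basis of `L_n`") with leading
forms `ℓ₁`, `ℓ₂` (`ℓ₁(x) ≠ 0 → ord u_x = m ∧ lc u_x = ℓ₁(x)`, and `ord u_x ≤ m` always).

`mwrp_main` : there is `F : MvPolynomial (ι ⊕ κ) K`, bihomogeneous of bidegree `(n, m)`, with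
(R1), (R2) and the two product forms (R-prod), (R-prod') of blueprint v1.1 (c).

Owner: helper17.  Prefix `mwrp_`.
-/

set_option autoImplicit false

namespace Fermat.Agent.MW

open Module MvPolynomial

section

variable {K B : Type*} [Field K] [CommRing B] [Algebra K B]

/-- the polynomial `y ↦ ∏_{q ∈ Z} q (Σ y_j ψ_j)`, a product of linear forms. -/
noncomputable def mwrpChow {κ : Type*} [Fintype κ] (ψ : κ → B) (Z : Multiset (B →ₐ[K] K)) :
    MvPolynomial κ K :=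
  (Z.map fun q => ∑ j, C (q (ψ j)) * X j).prod

theorem mwrp_eval_chow {κ : Type*} [Fintype κ] (ψ : κ → B) (Z : Multiset (B →ₐ[K] K))
    (y : κ → K) :
    eval y (mwrpChow ψ Z) = (Z.map fun q => q (∑ j, y j • ψ j)).prod := by
  unfold mwrpChow
  rw [map_multiset_prod, Multiset.map_map]
  congr 1
  refine Multiset.map_congr rfl fun q _ => ?_
  simp only [Function.comp_apply, map_sum, map_mul, eval_C, eval_X, map_smul, smul_eq_mul]
  exact Finset.sum_congr rfl fun j _ => mul_comm _ _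

theorem mwrp_units_int_sq (e : ℤˣ) : (((e : ℤ) : K)) * (((e : ℤ) : K)) = 1 := by
  rcases Int.units_eq_one_or e with h | h <;> rw [h] <;> norm_num

end

/-- **(RES-POLY), abstract form.** -/
theorem mwrp_main {K B : Type*} [Field K] [Infinite K] [CommRing B] [Algebra K B]
    (ord : B → ℕ) (lc : B → K)
    (hfin : ∀ b : B, b ≠ 0 →
      Module.Finite K (B ⧸ Ideal.span {b}) ∧ finrank K (B ⧸ Ideal.span {b}) = ord b)
    (ε : ℕ → ℕ → ℤˣ)
    (hsym : ∀ u T : B, u ≠ 0 → T ≠ 0 → 0 < ord T →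
      mwrpRho K u T * lc u ^ ord T
        = ((ε (ord u) (ord T) : ℤ) : K) * (mwrpRho K T u * lc T ^ ord u))
    {ι κ : Type*} [Fintype ι] [Fintype κ] (φ : ι → B) (ψ : κ → B) (m n : ℕ)
    (hm : 0 < m) (hn : 0 < n)
    (ℓ₁ : MvPolynomial ι K) (ℓ₂ : MvPolynomial κ K) (h₁ : ℓ₁ ≠ 0) (h₂ : ℓ₂ ≠ 0)
    (hφ : ∀ x : ι → K, eval x ℓ₁ ≠ 0 → (∑ i, x i • φ i) ≠ 0 ∧ ord (∑ i, x i • φ i) = m ∧
      lc (∑ i, x i • φ i) = eval x ℓ₁)
    (hφle : ∀ x : ι → K, ord (∑ i, x i • φ i) ≤ m)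
    (hψ : ∀ y : κ → K, eval y ℓ₂ ≠ 0 → (∑ j, y j • ψ j) ≠ 0 ∧ ord (∑ j, y j • ψ j) = n ∧
      lc (∑ j, y j • ψ j) = eval y ℓ₂)
    (hψle : ∀ y : κ → K, ord (∑ j, y j • ψ j) ≤ n) :
    ∃ F : MvPolynomial (ι ⊕ κ) K, MwrpBihom F n m ∧
      -- (R1)
      (∀ x y, eval y ℓ₂ ≠ 0 → eval (Sum.elim x y) F
        = eval y ℓ₂ ^ m * mwrpRho K (∑ j, y j • ψ j) (∑ i, x i • φ i)) ∧
      -- (R2)
      (∀ x y, eval x ℓ₁ ≠ 0 → eval (Sum.elim x y) F
        = ((ε m n : ℤ) : K) * eval x ℓ₁ ^ n * mwrpRho K (∑ i, x i • φ i) (∑ j, y j • ψ j)) ∧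
      -- (R-prod)
      (∀ x : ι → K, (∑ i, x i • φ i) ≠ 0 → ∀ Z : Multiset (B →ₐ[K] K),
        (∀ t, mwrpRho K (∑ i, x i • φ i) t = (Z.map fun q => q t).prod) → ∀ y : κ → K,
        eval (Sum.elim x y) F
          = ((ε (ord (∑ i, x i • φ i)) n : ℤ) : K) * lc (∑ i, x i • φ i) ^ n
            * eval y ℓ₂ ^ (m - ord (∑ i, x i • φ i))
            * (Z.map fun q => q (∑ j, y j • ψ j)).prod) ∧
      -- (R-prod')
      (∀ y : κ → K, (∑ j, y j • ψ j) ≠ 0 → ∀ Z : Multiset (B →ₐ[K] K),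
        (∀ t, mwrpRho K (∑ j, y j • ψ j) t = (Z.map fun q => q t).prod) → ∀ x : ι → K,
        eval (Sum.elim x y) F
          = ((ε m n : ℤ) : K) * ((ε (ord (∑ j, y j • ψ j)) m : ℤ) : K)
            * lc (∑ j, y j • ψ j) ^ m * eval x ℓ₁ ^ (n - ord (∑ j, y j • ψ j))
            * (Z.map fun q => q (∑ i, x i • φ i)).prod) := by
  classical
  -- generic reciprocity
  have hgen : ∀ (x : ι → K) (y : κ → K), eval x ℓ₁ ≠ 0 → eval y ℓ₂ ≠ 0 →
      ((ε m n : ℤ) : K) * eval x ℓ₁ ^ n * mwrpRho K (∑ i, x i • φ i) (∑ j, y j • ψ j)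
        = 1 * eval y ℓ₂ ^ m * mwrpRho K (∑ j, y j • ψ j) (∑ i, x i • φ i) := by
    intro x y hx hy
    obtain ⟨hu0, hum, hulc⟩ := hφ x hx
    obtain ⟨ht0, htn, htlc⟩ := hψ y hy
    have h := hsym _ _ hu0 ht0 (by rw [htn]; exact hn)
    rw [hum, htn, hulc, htlc] at h
    calc ((ε m n : ℤ) : K) * eval x ℓ₁ ^ n * mwrpRho K (∑ i, x i • φ i) (∑ j, y j • ψ j)
        = ((ε m n : ℤ) : K) * (mwrpRho K (∑ i, x i • φ i) (∑ j, y j • ψ j) * eval x ℓ₁ ^ n) := by
          ring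
      _ = (((ε m n : ℤ) : K) * ((ε m n : ℤ) : K))
            * (mwrpRho K (∑ j, y j • ψ j) (∑ i, x i • φ i) * eval y ℓ₂ ^ m) := by
          rw [h]; ring
      _ = _ := by rw [mwrp_units_int_sq]; ring
  obtain ⟨F, hF, hR2, hR1⟩ := mwrp_resPoly (K := K) φ ψ n m ((ε m n : ℤ) : K) 1 ℓ₁ ℓ₂ h₁ h₂
    (fun x hx => by
      obtain ⟨hu0, hum, -⟩ := hφ x hx
      obtain ⟨hf, hr⟩ := hfin _ hu0
      exact ⟨hf, hr.trans hum⟩)
    (fun y hy => by
      obtain ⟨ht0, htn, -⟩ := hψ y hy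
      obtain ⟨hf, hr⟩ := hfin _ ht0
      exact ⟨hf, hr.trans htn⟩)
    hgen
  have hR1' : ∀ x y, eval y ℓ₂ ≠ 0 → eval (Sum.elim x y) F
        = eval y ℓ₂ ^ m * mwrpRho K (∑ j, y j • ψ j) (∑ i, x i • φ i) := by
    intro x y hy
    rw [hR1 x y hy, one_mul]
  refine ⟨F, hF, hR1', hR2, ?_, ?_⟩
  · -- (R-prod)
    intro x hu0 Z hZ y
    set u : B := ∑ i, x i • φ i with hu
    have hle : ord u ≤ m := hφle x
    have h : mwrpEvalL x F
        = C (((ε (ord u) n : ℤ) : K) * lc u ^ n) * ℓ₂ ^ (m - ord u) * mwrpChow ψ Z := by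
      refine mwrp_eq_of_generic ℓ₂ _ _ h₂ fun y' hy' => ?_
      obtain ⟨ht0, htn, htlc⟩ := hψ y' hy'
      have hs := hsym u _ hu0 ht0 (by rw [htn]; exact hn)
      rw [htn, htlc] at hs
      rw [mwrp_eval_evalL, hR1' x y' hy', map_mul, map_mul, eval_C, map_pow, mwrp_eval_chow,
        ← hZ]
      have hpow : eval y' ℓ₂ ^ m = eval y' ℓ₂ ^ (m - ord u) * eval y' ℓ₂ ^ ord u := by
        rw [← pow_add, Nat.sub_add_cancel hle]
      calc eval y' ℓ₂ ^ m * mwrpRho K (∑ j, y' j • ψ j) u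
          = eval y' ℓ₂ ^ (m - ord u)
              * ((((ε (ord u) n : ℤ) : K) * ((ε (ord u) n : ℤ) : K))
                * (mwrpRho K (∑ j, y' j • ψ j) u * eval y' ℓ₂ ^ ord u)) := by
            rw [mwrp_units_int_sq, hpow]; ring
        _ = eval y' ℓ₂ ^ (m - ord u) * (((ε (ord u) n : ℤ) : K)
              * (mwrpRho K u (∑ j, y' j • ψ j) * lc u ^ n)) := by
            rw [hs]; ring
        _ = _ := by ring
    have := congrArg (eval y) h
    rw [mwrp_eval_evalL, map_mul, map_mul, eval_C, map_pow, mwrp_eval_chow] at this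
    rw [this]
  · -- (R-prod')
    intro y ht0 Z hZ x
    set t : B := ∑ j, y j • ψ j with ht
    have hle : ord t ≤ n := hψle y
    have h : mwrpEvalR y F
        = C (((ε m n : ℤ) : K) * ((ε (ord t) m : ℤ) : K) * lc t ^ m) * ℓ₁ ^ (n - ord t)
          * mwrpChow φ Z := by
      refine mwrp_eq_of_generic ℓ₁ _ _ h₁ fun x' hx' => ?_
      obtain ⟨hu0, hum, hulc⟩ := hφ x' hx'
      have hs := hsym t _ ht0 hu0 (by rw [hum]; exact hm)
      rw [hum, hulc] at hs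
      rw [mwrp_eval_evalR, hR2 x' y hx', map_mul, map_mul, eval_C, map_pow, mwrp_eval_chow,
        ← hZ]
      have hpow : eval x' ℓ₁ ^ n = eval x' ℓ₁ ^ (n - ord t) * eval x' ℓ₁ ^ ord t := by
        rw [← pow_add, Nat.sub_add_cancel hle]
      calc ((ε m n : ℤ) : K) * eval x' ℓ₁ ^ n * mwrpRho K (∑ i, x' i • φ i) t
          = ((ε m n : ℤ) : K) * eval x' ℓ₁ ^ (n - ord t)
              * ((((ε (ord t) m : ℤ) : K) * ((ε (ord t) m : ℤ) : K))
                * (mwrpRho K (∑ i, x' i • φ i) t * eval x' ℓ₁ ^ ord t)) := by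
            rw [mwrp_units_int_sq, hpow]; ring
        _ = ((ε m n : ℤ) : K) * eval x' ℓ₁ ^ (n - ord t) * (((ε (ord t) m : ℤ) : K)
              * (mwrpRho K t (∑ i, x' i • φ i) * lc t ^ m)) := by
            rw [hs]; ring
        _ = _ := by ring
    have := congrArg (eval x) h
    rw [mwrp_eval_evalR, map_mul, map_mul, eval_C, map_pow, mwrp_eval_chow] at this
    rw [this]

end Fermat.Agent.MW
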