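import Fermat.Agent.MW.Res.Norm
import Fermat.Agent.MW.ResPoly.Core

/-!
# S17 heights, leaf (RES-POLY): bridge to helper5's Weil reciprocity

helper5's `mwrs_sym'` (MW/Res/Norm.lean) is Weil reciprocity with the sign
`mwrsSign (ord u) (ord T)`, which depends only on the two orders - exactly the hypothesis `hsym` of
`mwrp_main`.  Here: the bridge between his `mwrsRho` (a norm) and `mwrpRho` (a determinant).

Owner: helper17.  Prefix `mwrp_`.
-/

set_option autoImplicit false

noncomputable section

namespace Fermat.Agent.MW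

variable {K B : Type*} [Field K] [CommRing B] [Algebra K B] (V : MwrsVal K B)

/-- bridge between helper5's `mwrsRho` (a norm) and `mwrpRho` (a determinant). -/
theorem mwrp_rho_eq (u T : B) : mwrsRho K u T = mwrpRho K u T := by
  unfold mwrsRho mwrpRho
  rw [Algebra.norm_apply]
  rfl

/-- **Weil reciprocity in resultant form, with a sign depending only on the two orders**
(helper5's `mwrs_sym'` in the `mwrpRho` spelling). -/
theorem mwrp_sym_uniform (u T : B) (hu : u ≠ 0) (hT : 0 < V.ord T)
    (hres : ∀ j : Fin (V.ord T), ∃ b : B, b ≠ 0 ∧ V.ord b % V.ord T = j) :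
    mwrpRho K u T * V.lc u ^ V.ord T =
      (((mwrsSign (V.ord u) (V.ord T) : ℤˣ) : ℤ) : K) * (mwrpRho K T u * V.lc T ^ V.ord u) := by
  have h := mwrs_sym' V u T hu hT hres
  rwa [mwrp_rho_eq, mwrp_rho_eq] at h

end Fermat.Agent.MW
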